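import Mathlib
import Fermat.Agent.S28.Defs

/-!
# S28 / M2c: verified truncated arithmetic of integral power series

`tr N f` is the list of the first `N` coefficients of `f : PowerSeries ℤ`.  The list operations
`mulT`, `addT`, `subT`, `smulT`, `expandT`, `shiftT` compute `tr N` of products, sums, differences,
integer multiples, `f(q^d)` and `q · f`.  All of them are evaluated by the kernel (`decide +kernel`)
on explicit lists in the certificate files.
-/

set_option autoImplicit false

namespace Fermat.Agent.S28.H14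

open PowerSeries

/-- The list `[g 0, …, g (N - 1)]`. -/
def tabT (N : ℕ) (g : ℕ → ℤ) : List ℤ := (List.range N).map g

/-- The list of the first `N` coefficients of `f`. -/
noncomputable def tr (N : ℕ) (f : PowerSeries ℤ) : List ℤ := tabT N (fun i => coeff i f)

theorem length_tabT (N : ℕ) (g : ℕ → ℤ) : (tabT N g).length = N := by
  simp [tabT]

theorem getD_tabT (N : ℕ) (g : ℕ → ℤ) {i : ℕ} (hi : i < N) : (tabT N g).getD i 0 = g i := by
  unfold tabT
  rw [List.getD_eq_getElem?_getD, List.getElem?_map, List.getElem?_range hi]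
  rfl

theorem getD_tr (N : ℕ) (f : PowerSeries ℤ) {i : ℕ} (hi : i < N) :
    (tr N f).getD i 0 = coeff i f := getD_tabT N _ hi

theorem tabT_congr {N : ℕ} {g h : ℕ → ℤ} (H : ∀ i, i < N → g i = h i) : tabT N g = tabT N h := by
  unfold tabT
  exact List.map_congr_left (fun i hi => H i (List.mem_range.mp hi))

/-- Two series with the same `tr N` have the same coefficients below `N`. -/
theorem coeff_eq_of_tr_eq {N : ℕ} {f g : PowerSeries ℤ} (h : tr N f = tr N g) {n : ℕ}
    (hn : n < N) : coeff n f = coeff n g := by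
  rw [← getD_tr N f hn, ← getD_tr N g hn, h]

/-- `tr N f` is a given list as soon as the coefficients agree. -/
theorem tr_eq_of_forall {N : ℕ} {f : PowerSeries ℤ} (l : List ℤ) (hl : l.length = N)
    (h : ∀ i, i < N → coeff i f = l.getD i 0) : tr N f = l := by
  apply List.ext_getElem
  · rw [hl]; exact length_tabT N _
  · intro i h1 h2
    have hi : i < N := by rw [← hl]; exact h2
    have e1 : (tr N f)[i] = (tr N f).getD i 0 := by
      rw [List.getD_eq_getElem?_getD, List.getElem?_eq_getElem h1]; rfl
    have e2 : l[i] = l.getD i 0 := by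
      rw [List.getD_eq_getElem?_getD, List.getElem?_eq_getElem h2]; rfl
    rw [e1, e2, getD_tr N f hi, h i hi]

theorem sum_map_range (g : ℕ → ℤ) (m : ℕ) :
    ((List.range m).map g).sum = ∑ i ∈ Finset.range m, g i := by
  induction m with
  | zero => simp
  | succ m ih =>
    rw [List.range_succ, List.map_append, List.sum_append, ih, Finset.sum_range_succ]
    simp

/-- Truncated product. -/
def mulT (N : ℕ) (a b : List ℤ) : List ℤ :=
  tabT N fun n => ((List.range (n + 1)).map fun i => a.getD i 0 * b.getD (n - i) 0).sum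

/-- Truncated sum. -/
def addT (N : ℕ) (a b : List ℤ) : List ℤ := tabT N fun n => a.getD n 0 + b.getD n 0

/-- Truncated difference. -/
def subT (N : ℕ) (a b : List ℤ) : List ℤ := tabT N fun n => a.getD n 0 - b.getD n 0

/-- Integer multiple. -/
def smulT (N : ℕ) (c : ℤ) (a : List ℤ) : List ℤ := tabT N fun n => c * a.getD n 0

/-- `f(q) ↦ f(q^d)`. -/
def expandT (N d : ℕ) (a : List ℤ) : List ℤ :=
  tabT N fun n => if d ∣ n then a.getD (n / d) 0 else 0

/-- `f ↦ q · f`. -/
def shiftT (N : ℕ) (a : List ℤ) : List ℤ :=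
  tabT N fun n => if n = 0 then 0 else a.getD (n - 1) 0

variable (N : ℕ) (f g : PowerSeries ℤ)

theorem tr_mul : tr N (f * g) = mulT N (tr N f) (tr N g) := by
  unfold mulT
  refine tabT_congr fun n hn => ?_
  rw [coeff_mul, Finset.Nat.sum_antidiagonal_eq_sum_range_succ_mk, sum_map_range]
  refine Finset.sum_congr rfl fun i hi => ?_
  have hi' : i < n + 1 := Finset.mem_range.mp hi
  rw [getD_tr N f (by omega), getD_tr N g (by omega)]

theorem tr_add : tr N (f + g) = addT N (tr N f) (tr N g) := by
  unfold addT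
  refine tabT_congr fun n hn => ?_
  rw [map_add, getD_tr N f hn, getD_tr N g hn]

theorem tr_sub : tr N (f - g) = subT N (tr N f) (tr N g) := by
  unfold subT
  refine tabT_congr fun n hn => ?_
  rw [map_sub, getD_tr N f hn, getD_tr N g hn]

theorem tr_C_mul (c : ℤ) : tr N (C c * f) = smulT N c (tr N f) := by
  unfold smulT
  refine tabT_congr fun n hn => ?_
  rw [coeff_C_mul, getD_tr N f hn]

theorem tr_ofNat_mul (c : ℕ) [c.AtLeastTwo] :
    tr N ((OfNat.ofNat c : PowerSeries ℤ) * f) = smulT N (OfNat.ofNat c) (tr N f) := by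
  have h : (OfNat.ofNat c : PowerSeries ℤ) = C (OfNat.ofNat c : ℤ) := (map_ofNat C c).symm
  rw [h, tr_C_mul]

theorem tr_pow_two : tr N (f ^ 2) = mulT N (tr N f) (tr N f) := by
  rw [pow_two, tr_mul]

theorem tr_pow_three : tr N (f ^ 3) = mulT N (mulT N (tr N f) (tr N f)) (tr N f) := by
  rw [pow_succ, pow_two, tr_mul, tr_mul]

theorem tr_expand (d : ℕ) (hd : d ≠ 0) :
    tr N (PowerSeries.expand d hd f) = expandT N d (tr N f) := by
  unfold expandT
  refine tabT_congr fun n hn => ?_
  rw [coeff_expand]
  split_ifs with h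
  · rw [getD_tr N f (lt_of_le_of_lt (Nat.div_le_self n d) hn)]
  · rfl

theorem tr_vPS (d : ℕ) [NeZero d] : tr N (vPS d f) = expandT N d (tr N f) :=
  tr_expand N f d (NeZero.ne d)

theorem tr_X_mul : tr N (X * f) = shiftT N (tr N f) := by
  unfold shiftT
  refine tabT_congr fun n hn => ?_
  rcases n with _ | n
  · simp
  · rw [coeff_succ_X_mul, if_neg (Nat.succ_ne_zero n), Nat.add_sub_cancel,
      getD_tr N f (by omega)]

end Fermat.Agent.S28.H14
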