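import Mathlib
import Fermat.Agent.S28.Defs
import Fermat.Agent.S28.H14.Trunc

/-!
# S28 / M2c: the first 17 coefficients of `etaProd`, `eisenstein4`, `deltaPS` and their expansions

Generated certificate steps: every `decide +kernel` is a small kernel computation on explicit lists.
-/

set_option autoImplicit false

namespace Fermat.Agent.S28.H14

open PowerSeries ModularCurve
open scoped PowerSeries.WithPiTopology

theorem etaProd_eq_pentagonalSeries : etaProd = PowerSeries.pentagonalSeries ℤ := by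
  unfold etaProd
  exact PowerSeries.WithPiTopology.tprod_one_sub_X_pow ℤ

theorem pentagonal_le_sixteen {k : ℤ} (h : pentagonal k ≤ 16) : -3 ≤ k ∧ k ≤ 3 := by
  constructor
  · by_contra hk
    push Not at hk
    have h1 : pentagonal (-4) ≤ pentagonal k :=
      pentagonal_strictAntiOn.antitoneOn (by simp; omega) (by simp) (by omega)
    have h2 : pentagonal (-4) = 26 := by decide
    omega
  · by_contra hk
    push Not at hk
    have h1 : pentagonal 4 ≤ pentagonal k :=
      pentagonal_strictMonoOn.monotoneOn (by simp) (by simp; omega) (by omega)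
    have h2 : pentagonal 4 = 22 := by decide
    omega

theorem coeff_pentagonalSeries_of_not {n : ℕ} (hn : n ≤ 16)
    (h : ∀ k : ℤ, -3 ≤ k → k ≤ 3 → pentagonal k ≠ n) : coeff n (pentagonalSeries ℤ) = 0 := by
  apply coeff_pentagonalSeries_eq_zero
  rintro ⟨k, hk⟩
  obtain ⟨h1, h2⟩ := pentagonal_le_sixteen (k := k) (by omega)
  exact h k h1 h2 hk

/-- Literal coefficient list (length 17). -/
def l_etaProd : List ℤ :=
  [1, -1, -1, 0, 0, 1, 0, 1, 0, 0, 0, 0, -1, 0, 0, -1, 0]

theorem tr_etaProd : tr 17 etaProd = l_etaProd := by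
  rw [etaProd_eq_pentagonalSeries]
  refine tr_eq_of_forall _ rfl fun i hi => ?_
  interval_cases i
  · exact (coeff_pentagonalSeries_pentagonal ℤ 0).trans
      (show ((Int.negOnePow 0 : ℤˣ) : ℤ) = l_etaProd.getD 0 0 by decide)
  · exact (coeff_pentagonalSeries_pentagonal ℤ 1).trans
      (show ((Int.negOnePow 1 : ℤˣ) : ℤ) = l_etaProd.getD 1 0 by decide)
  · exact (coeff_pentagonalSeries_pentagonal ℤ (-1)).trans
      (show ((Int.negOnePow (-1) : ℤˣ) : ℤ) = l_etaProd.getD 2 0 by decide)
  · exact (coeff_pentagonalSeries_of_not (n := 3) (by decide) (by decide)).trans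
      (show (0 : ℤ) = l_etaProd.getD 3 0 by decide)
  · exact (coeff_pentagonalSeries_of_not (n := 4) (by decide) (by decide)).trans
      (show (0 : ℤ) = l_etaProd.getD 4 0 by decide)
  · exact (coeff_pentagonalSeries_pentagonal ℤ 2).trans
      (show ((Int.negOnePow 2 : ℤˣ) : ℤ) = l_etaProd.getD 5 0 by decide)
  · exact (coeff_pentagonalSeries_of_not (n := 6) (by decide) (by decide)).trans
      (show (0 : ℤ) = l_etaProd.getD 6 0 by decide)
  · exact (coeff_pentagonalSeries_pentagonal ℤ (-2)).trans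
      (show ((Int.negOnePow (-2) : ℤˣ) : ℤ) = l_etaProd.getD 7 0 by decide)
  · exact (coeff_pentagonalSeries_of_not (n := 8) (by decide) (by decide)).trans
      (show (0 : ℤ) = l_etaProd.getD 8 0 by decide)
  · exact (coeff_pentagonalSeries_of_not (n := 9) (by decide) (by decide)).trans
      (show (0 : ℤ) = l_etaProd.getD 9 0 by decide)
  · exact (coeff_pentagonalSeries_of_not (n := 10) (by decide) (by decide)).trans
      (show (0 : ℤ) = l_etaProd.getD 10 0 by decide)
  · exact (coeff_pentagonalSeries_of_not (n := 11) (by decide) (by decide)).trans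
      (show (0 : ℤ) = l_etaProd.getD 11 0 by decide)
  · exact (coeff_pentagonalSeries_pentagonal ℤ 3).trans
      (show ((Int.negOnePow 3 : ℤˣ) : ℤ) = l_etaProd.getD 12 0 by decide)
  · exact (coeff_pentagonalSeries_of_not (n := 13) (by decide) (by decide)).trans
      (show (0 : ℤ) = l_etaProd.getD 13 0 by decide)
  · exact (coeff_pentagonalSeries_of_not (n := 14) (by decide) (by decide)).trans
      (show (0 : ℤ) = l_etaProd.getD 14 0 by decide)
  · exact (coeff_pentagonalSeries_pentagonal ℤ (-3)).trans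
      (show ((Int.negOnePow (-3) : ℤˣ) : ℤ) = l_etaProd.getD 15 0 by decide)
  · exact (coeff_pentagonalSeries_of_not (n := 16) (by decide) (by decide)).trans
      (show (0 : ℤ) = l_etaProd.getD 16 0 by decide)

/-- Literal coefficient list (length 17). -/
def l_eisenstein4 : List ℤ :=
  [1, 240, 2160, 6720, 17520, 30240, 60480, 82560, 140400, 181680, 272160, 319680, 490560, 527520, 743040, 846720, 1123440]

theorem tr_eisenstein4 : tr 17 eisenstein4 = l_eisenstein4 := by
  refine tr_eq_of_forall _ rfl fun i hi => ?_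
  rw [eisenstein4, coeff_mk]
  interval_cases i <;> decide +kernel

/-- Literal coefficient list (length 17). -/
def l_eta3 : List ℤ :=
  [1, -3, 0, 5, 0, 0, -7, 0, 0, 0, 9, 0, 0, 0, 0, -11, 0]

theorem tr_eta3 : tr 17 ((etaProd ^ 3)) = l_eta3 := by
  rw [tr_pow_three 17 (etaProd), tr_etaProd]
  decide +kernel

/-- Literal coefficient list (length 17). -/
def l_eta6 : List ℤ :=
  [1, -6, 9, 10, -30, 0, 11, 42, 0, -70, 18, -54, 49, 90, 0, -22, -60]

theorem tr_eta6 : tr 17 (((etaProd ^ 3) ^ 2)) = l_eta6 := by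
  rw [tr_pow_two 17 ((etaProd ^ 3)), tr_eta3]
  decide +kernel

/-- Literal coefficient list (length 17). -/
def l_eta12 : List ℤ :=
  [1, -12, 54, -88, -99, 540, -418, -648, 594, 836, 1056, -4104, -209, 4104, -594, 4256, -6480]

theorem tr_eta12 : tr 17 ((((etaProd ^ 3) ^ 2) ^ 2)) = l_eta12 := by
  rw [tr_pow_two 17 (((etaProd ^ 3) ^ 2)), tr_eta6]
  decide +kernel

/-- Literal coefficient list (length 17). -/
def l_eta24 : List ℤ :=
  [1, -24, 252, -1472, 4830, -6048, -16744, 84480, -113643, -115920, 534612, -370944, -577738, 401856, 1217160, 987136, -6905934]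

theorem tr_eta24 : tr 17 (((((etaProd ^ 3) ^ 2) ^ 2) ^ 2)) = l_eta24 := by
  rw [tr_pow_two 17 ((((etaProd ^ 3) ^ 2) ^ 2)), tr_eta12]
  decide +kernel

/-- Literal coefficient list (length 17). -/
def l_deltaPS : List ℤ :=
  [0, 1, -24, 252, -1472, 4830, -6048, -16744, 84480, -113643, -115920, 534612, -370944, -577738, 401856, 1217160, 987136]

theorem deltaPS_eq : deltaPS = X * ((((etaProd ^ 3) ^ 2) ^ 2) ^ 2) := by
  unfold deltaPS dedekindEtaUnit
  ring

theorem tr_deltaPS : tr 17 deltaPS = l_deltaPS := by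
  rw [deltaPS_eq, tr_X_mul, tr_eta24]
  decide +kernel

/-- Literal coefficient list (length 17). -/
def l_D2 : List ℤ :=
  [0, 0, 1, 0, -24, 0, 252, 0, -1472, 0, 4830, 0, -6048, 0, -16744, 0, 84480]

theorem tr_D2 : tr 17 ((vPS 2 deltaPS)) = l_D2 := by
  rw [tr_vPS 17 (deltaPS) 2, tr_deltaPS]
  decide +kernel

/-- Literal coefficient list (length 17). -/
def l_D3 : List ℤ :=
  [0, 0, 0, 1, 0, 0, -24, 0, 0, 252, 0, 0, -1472, 0, 0, 4830, 0]

theorem tr_D3 : tr 17 ((vPS 3 deltaPS)) = l_D3 := by
  rw [tr_vPS 17 (deltaPS) 3, tr_deltaPS]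
  decide +kernel

/-- Literal coefficient list (length 17). -/
def l_Ecube : List ℤ :=
  [1, 720, 179280, 16954560, 396974160, 4632858720, 34413301440, 187477879680, 814940600400, 2975469665040, 9486467837280, 27053330840640, 70485969919680, 169930679355360, 384163875688320, 820167497170560, 1668890801059920]

theorem tr_Ecube : tr 17 ((eisenstein4 ^ 3)) = l_Ecube := by
  rw [tr_pow_three 17 (eisenstein4), tr_eisenstein4]
  decide +kernel

/-- Literal coefficient list (length 17). -/
def l_E2 : List ℤ :=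
  [1, 0, 240, 0, 2160, 0, 6720, 0, 17520, 0, 30240, 0, 60480, 0, 82560, 0, 140400]

theorem tr_E2 : tr 17 ((vPS 2 eisenstein4)) = l_E2 := by
  rw [tr_vPS 17 (eisenstein4) 2, tr_eisenstein4]
  decide +kernel

/-- Literal coefficient list (length 17). -/
def l_E3 : List ℤ :=
  [1, 0, 0, 240, 0, 0, 2160, 0, 0, 6720, 0, 0, 17520, 0, 0, 30240, 0]

theorem tr_E3 : tr 17 ((vPS 3 eisenstein4)) = l_E3 := by
  rw [tr_vPS 17 (eisenstein4) 3, tr_eisenstein4]
  decide +kernel

/-- Literal coefficient list (length 17). -/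
def l_E2cube : List ℤ :=
  [1, 0, 720, 0, 179280, 0, 16954560, 0, 396974160, 0, 4632858720, 0, 34413301440, 0, 187477879680, 0, 814940600400]

theorem tr_E2cube : tr 17 (((vPS 2 eisenstein4) ^ 3)) = l_E2cube := by
  rw [tr_pow_three 17 ((vPS 2 eisenstein4)), tr_E2]
  decide +kernel

/-- Literal coefficient list (length 17). -/
def l_E3cube : List ℤ :=
  [1, 0, 0, 720, 0, 0, 179280, 0, 0, 16954560, 0, 0, 396974160, 0, 0, 4632858720, 0]

theorem tr_E3cube : tr 17 (((vPS 3 eisenstein4) ^ 3)) = l_E3cube := by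
  rw [tr_pow_three 17 ((vPS 3 eisenstein4)), tr_E3]
  decide +kernel

end Fermat.Agent.S28.H14
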