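import Mathlib
import Fermat.Agent.S28.Defs
import Fermat.Agent.S28.H14.CertBase

/-!
# S28 / M2c: coefficient certificates for the level-2 identities `level2_a`, `level2_b`
-/

set_option autoImplicit false

namespace Fermat.Agent.S28.H14

open PowerSeries ModularCurve
open scoped PowerSeries.WithPiTopology

/-- Literal coefficient list (length 17). -/
def l_c2a_1 : List ℤ :=
  [0, 1, 696, 162252, 12831808, 34188270, -882400608, -833380744, 25487347200, -20041723323, -288074404080, 434433753732, 1007032271616, 2385917303462, -21022079461824, 20516848304040, 10832015527936]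

theorem tr_c2a_1 : tr 17 (((eisenstein4 ^ 3) * deltaPS)) = l_c2a_1 := by
  rw [tr_mul 17 ((eisenstein4 ^ 3)) (deltaPS), tr_Ecube, tr_deltaPS]
  decide +kernel

/-- Literal coefficient list (length 17). -/
def l_c2a_L : List ℤ :=
  [0, 0, 0, 1, 696, 162228, 12815104, 30294474, -1190188608, -1613013192, 49897552896, 8336028459, -1141020749792, 655881703668, 15704496582144, -11700122581074, -159642592252416]

theorem tr_c2a_L : tr 17 ((((eisenstein4 ^ 3) * deltaPS) * (vPS 2 deltaPS))) = l_c2a_L := by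
  rw [tr_mul 17 (((eisenstein4 ^ 3) * deltaPS)) ((vPS 2 deltaPS)), tr_c2a_1, tr_D2]
  decide +kernel

/-- Literal coefficient list (length 17). -/
def l_c2a_2 : List ℤ :=
  [0, 0, 256, 0, -6144, 0, 64512, 0, -376832, 0, 1236480, 0, -1548288, 0, -4286464, 0, 21626880]

theorem tr_c2a_2 : tr 17 ((256 * (vPS 2 deltaPS))) = l_c2a_2 := by
  rw [tr_ofNat_mul 17 ((vPS 2 deltaPS)) 256, tr_D2]
  decide +kernel

/-- Literal coefficient list (length 17). -/
def l_c2a_3 : List ℤ :=
  [0, 1, 232, 252, -7616, 4830, 58464, -16744, -292352, -113643, 1120560, 534612, -1919232, -577738, -3884608, 1217160, 22614016]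

theorem tr_c2a_3 : tr 17 ((deltaPS + (256 * (vPS 2 deltaPS)))) = l_c2a_3 := by
  rw [tr_add 17 (deltaPS) ((256 * (vPS 2 deltaPS))), tr_deltaPS, tr_c2a_2]
  decide +kernel

theorem tr_c2a_R : tr 17 (((deltaPS + (256 * (vPS 2 deltaPS))) ^ 3)) = l_c2a_L := by
  rw [tr_pow_three 17 ((deltaPS + (256 * (vPS 2 deltaPS)))), tr_c2a_3]
  decide +kernel

/-- Certificate for `level2_a` (Sturm bound 9): coefficients `0, …, 9` agree
(in fact `0, …, 16`). -/
theorem cert2a_lt : ∀ n, n < 17 → coeff n (eisenstein4 ^ 3 * deltaPS * vPS 2 deltaPS) =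
    coeff n ((deltaPS + 256 * vPS 2 deltaPS) ^ 3) :=
  fun _ hn => coeff_eq_of_tr_eq (tr_c2a_L.trans tr_c2a_R.symm) hn

theorem cert2a : ∀ n ≤ 9, coeff n (eisenstein4 ^ 3 * deltaPS * vPS 2 deltaPS) =
    coeff n ((deltaPS + 256 * vPS 2 deltaPS) ^ 3) :=
  fun n hn => cert2a_lt n (by omega)

/-- Literal coefficient list (length 17). -/
def l_c2b_1 : List ℤ :=
  [0, 1, -24, 972, -18752, 365550, -5368608, 65593976, -675079680, 5523276357, -35508067920, 183477719172, -783014010624, 2815402164902, -8635114576704, 22758065548200, -51670586445824]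

theorem tr_c2b_1 : tr 17 ((((vPS 2 eisenstein4) ^ 3) * deltaPS)) = l_c2b_1 := by
  rw [tr_mul 17 (((vPS 2 eisenstein4) ^ 3)) (deltaPS), tr_E2cube, tr_deltaPS]
  decide +kernel

/-- Literal coefficient list (length 17). -/
def l_c2b_L : List ℤ :=
  [0, 0, 0, 1, -24, 948, -18176, 342474, -4924608, 57064248, -550923264, 4039713579, -20631557792, 66915367668, -93128295936, -290992074834, 2177089288704]

theorem tr_c2b_L : tr 17 (((((vPS 2 eisenstein4) ^ 3) * deltaPS) * (vPS 2 deltaPS))) = l_c2b_L := by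
  rw [tr_mul 17 ((((vPS 2 eisenstein4) ^ 3) * deltaPS)) ((vPS 2 deltaPS)), tr_c2b_1, tr_D2]
  decide +kernel

/-- Literal coefficient list (length 17). -/
def l_c2b_2 : List ℤ :=
  [0, 0, 16, 0, -384, 0, 4032, 0, -23552, 0, 77280, 0, -96768, 0, -267904, 0, 1351680]

theorem tr_c2b_2 : tr 17 ((16 * (vPS 2 deltaPS))) = l_c2b_2 := by
  rw [tr_ofNat_mul 17 ((vPS 2 deltaPS)) 16, tr_D2]
  decide +kernel

/-- Literal coefficient list (length 17). -/
def l_c2b_3 : List ℤ :=
  [0, 1, -8, 252, -1856, 4830, -2016, -16744, 60928, -113643, -38640, 534612, -467712, -577738, 133952, 1217160, 2338816]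

theorem tr_c2b_3 : tr 17 ((deltaPS + (16 * (vPS 2 deltaPS)))) = l_c2b_3 := by
  rw [tr_add 17 (deltaPS) ((16 * (vPS 2 deltaPS))), tr_deltaPS, tr_c2b_2]
  decide +kernel

theorem tr_c2b_R : tr 17 (((deltaPS + (16 * (vPS 2 deltaPS))) ^ 3)) = l_c2b_L := by
  rw [tr_pow_three 17 ((deltaPS + (16 * (vPS 2 deltaPS)))), tr_c2b_3]
  decide +kernel

/-- Certificate for `level2_b` (Sturm bound 9). -/
theorem cert2b_lt : ∀ n, n < 17 → coeff n ((vPS 2 eisenstein4) ^ 3 * deltaPS * vPS 2 deltaPS) =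
    coeff n ((deltaPS + 16 * vPS 2 deltaPS) ^ 3) :=
  fun _ hn => coeff_eq_of_tr_eq (tr_c2b_L.trans tr_c2b_R.symm) hn

theorem cert2b : ∀ n ≤ 9, coeff n ((vPS 2 eisenstein4) ^ 3 * deltaPS * vPS 2 deltaPS) =
    coeff n ((deltaPS + 16 * vPS 2 deltaPS) ^ 3) :=
  fun n hn => cert2b_lt n (by omega)

end Fermat.Agent.S28.H14
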