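import Mathlib
import Fermat.Agent.S28.Defs
import Fermat.Agent.S28.H14.CertBase

/-!
# S28 / M2c: coefficient certificates for the level-3 identities `level3_a`, `level3_b`
-/

set_option autoImplicit false

namespace Fermat.Agent.S28.H14

open PowerSeries ModularCurve
open scoped PowerSeries.WithPiTopology

/-- Literal coefficient list (length 17). -/
def l_c3a_1 : List ℤ :=
  [0, 0, 0, 0, 1, -24, 252, -1496, 5406, -12096, 18836, -37488, 95013, -86480, -240420, 461448, 156468]

theorem tr_c3a_1 : tr 17 ((deltaPS * (vPS 3 deltaPS))) = l_c3a_1 := by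
  rw [tr_mul 17 (deltaPS) ((vPS 3 deltaPS)), tr_deltaPS, tr_D3]
  decide +kernel

/-- Literal coefficient list (length 17). -/
def l_c3a_2 : List ℤ :=
  [0, 756, -18144, 190512, -1112832, 3651480, -4572288, -12658464, 63866880, -85914108, -87635520, 404166672, -280433664, -436769928, 303803136, 920172960, 746274816]

theorem tr_c3a_2 : tr 17 ((756 * deltaPS)) = l_c3a_2 := by
  rw [tr_ofNat_mul 17 (deltaPS) 756, tr_deltaPS]
  decide +kernel

/-- Literal coefficient list (length 17). -/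
def l_c3a_3 : List ℤ :=
  [1, -36, 197424, 16764048, 398086992, 4629207240, 34417873728, 187490538144, 814876733520, 2975555579148, 9486555472800, 27052926673968, 70486250353344, 169931116125288, 384163571885184, 820166576997600, 1668890054785104]

theorem tr_c3a_3 : tr 17 (((eisenstein4 ^ 3) - (756 * deltaPS))) = l_c3a_3 := by
  rw [tr_sub 17 ((eisenstein4 ^ 3)) ((756 * deltaPS)), tr_Ecube, tr_c3a_2]
  decide +kernel

/-- Literal coefficient list (length 17). -/
def l_c3a_4 : List ℤ :=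
  [0, 0, 0, 19131876, 0, 0, -459165024, 0, 0, 4821232752, 0, 0, -28162121472, 0, 0, 92406961080, 0]

theorem tr_c3a_4 : tr 17 ((19131876 * (vPS 3 deltaPS))) = l_c3a_4 := by
  rw [tr_ofNat_mul 17 ((vPS 3 deltaPS)) 19131876, tr_D3]
  decide +kernel

/-- Literal coefficient list (length 17). -/
def l_c3a_5 : List ℤ :=
  [1, -36, 197424, -2367828, 398086992, 4629207240, 34877038752, 187490538144, 814876733520, 2970734346396, 9486555472800, 27052926673968, 70514412474816, 169931116125288, 384163571885184, 820074170036520, 1668890054785104]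

theorem tr_c3a_5 : tr 17 ((((eisenstein4 ^ 3) - (756 * deltaPS)) - (19131876 * (vPS 3 deltaPS)))) = l_c3a_5 := by
  rw [tr_sub 17 (((eisenstein4 ^ 3) - (756 * deltaPS))) ((19131876 * (vPS 3 deltaPS))), tr_c3a_3, tr_c3a_4]
  decide +kernel

/-- Literal coefficient list (length 17). -/
def l_c3a_6 : List ℤ :=
  [1, -72, 396144, -18950184, 39942893376, -954335999088, 162526913211024, -59505997601088, 150310179590128992, 3594466247553264312, 48631417400980693152, 469494553014161059680, 3590732165460948648864, 22953669471447451867728, 126950632927311897842688, 621886626324436636458576, 2745675023060155245187104]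

theorem tr_c3a_6 : tr 17 (((((eisenstein4 ^ 3) - (756 * deltaPS)) - (19131876 * (vPS 3 deltaPS))) ^ 2)) = l_c3a_6 := by
  rw [tr_pow_two 17 ((((eisenstein4 ^ 3) - (756 * deltaPS)) - (19131876 * (vPS 3 deltaPS)))), tr_c3a_5]
  decide +kernel

/-- Literal coefficient list (length 17). -/
def l_c3a_L : List ℤ :=
  [0, 0, 0, 0, 1, -96, 398124, -28477280, 40497639198, -1918333919232, 195527078239364, -4260506392772544, 194338960283947653, -276756497621582912, 1222330942278791628, -19025088944838264288, 17056116962597468244]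

theorem tr_c3a_L : tr 17 (((deltaPS * (vPS 3 deltaPS)) * ((((eisenstein4 ^ 3) - (756 * deltaPS)) - (19131876 * (vPS 3 deltaPS))) ^ 2))) = l_c3a_L := by
  rw [tr_mul 17 ((deltaPS * (vPS 3 deltaPS))) (((((eisenstein4 ^ 3) - (756 * deltaPS)) - (19131876 * (vPS 3 deltaPS))) ^ 2)), tr_c3a_1, tr_c3a_6]
  decide +kernel

/-- Literal coefficient list (length 17). -/
def l_c3a_7 : List ℤ :=
  [0, 0, 1, -48, 1080, -15040, 143820, -985824, 4857920, -16295040, 28412910, 38671600, -424520544, 1268350272, -1211937160, -4306546080, 18293091840]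

theorem tr_c3a_7 : tr 17 ((deltaPS ^ 2)) = l_c3a_7 := by
  rw [tr_pow_two 17 (deltaPS), tr_deltaPS]
  decide +kernel

/-- Literal coefficient list (length 17). -/
def l_c3a_8 : List ℤ :=
  [0, 196830, -4723920, 49601160, -289733760, 950688900, -1190427840, -3295721520, 16628198400, -22368351690, -22816533600, 105227679960, -73012907520, -113716170540, 79097316480, 239573602800, 194297978880]

theorem tr_c3a_8 : tr 17 ((196830 * deltaPS)) = l_c3a_8 := by
  rw [tr_ofNat_mul 17 (deltaPS) 196830, tr_deltaPS]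
  decide +kernel

/-- Literal coefficient list (length 17). -/
def l_c3a_9 : List ℤ :=
  [0, 0, 0, 0, 196830, -4723920, 49601160, -294457680, 1064062980, -2380855680, 3707489880, -7378763040, 18701408790, -17021858400, -47321868600, 90826809840, 30797596440]

theorem tr_c3a_9 : tr 17 (((196830 * deltaPS) * (vPS 3 deltaPS))) = l_c3a_9 := by
  rw [tr_mul 17 ((196830 * deltaPS)) ((vPS 3 deltaPS)), tr_c3a_8, tr_D3]
  decide +kernel

/-- Literal coefficient list (length 17). -/
def l_c3a_10 : List ℤ :=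
  [0, 0, 1, -48, 197910, -4738960, 49744980, -295443504, 1068920900, -2397150720, 3735902790, -7340091440, 18276888246, -15753508128, -48533805760, 86520263760, 49090688280]

theorem tr_c3a_10 : tr 17 (((deltaPS ^ 2) + ((196830 * deltaPS) * (vPS 3 deltaPS)))) = l_c3a_10 := by
  rw [tr_add 17 ((deltaPS ^ 2)) (((196830 * deltaPS) * (vPS 3 deltaPS))), tr_c3a_7, tr_c3a_9]
  decide +kernel

/-- Literal coefficient list (length 17). -/
def l_c3a_11 : List ℤ :=
  [0, 0, 0, 0, 0, 0, 1, 0, 0, -48, 0, 0, 1080, 0, 0, -15040, 0]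

theorem tr_c3a_11 : tr 17 (((vPS 3 deltaPS) ^ 2)) = l_c3a_11 := by
  rw [tr_pow_two 17 ((vPS 3 deltaPS)), tr_D3]
  decide +kernel

/-- Literal coefficient list (length 17). -/
def l_c3a_12 : List ℤ :=
  [0, 0, 0, 0, 0, 0, 387420489, 0, 0, -18596183472, 0, 0, 418414128120, 0, 0, -5826804154560, 0]

theorem tr_c3a_12 : tr 17 ((387420489 * ((vPS 3 deltaPS) ^ 2))) = l_c3a_12 := by
  rw [tr_ofNat_mul 17 (((vPS 3 deltaPS) ^ 2)) 387420489, tr_c3a_11]
  decide +kernel

/-- Literal coefficient list (length 17). -/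
def l_c3a_13 : List ℤ :=
  [0, 0, 1, -48, 197910, -4738960, 437165469, -295443504, 1068920900, -20993334192, 3735902790, -7340091440, 436691016366, -15753508128, -48533805760, -5740283890800, 49090688280]

theorem tr_c3a_13 : tr 17 ((((deltaPS ^ 2) + ((196830 * deltaPS) * (vPS 3 deltaPS))) + (387420489 * ((vPS 3 deltaPS) ^ 2)))) = l_c3a_13 := by
  rw [tr_add 17 (((deltaPS ^ 2) + ((196830 * deltaPS) * (vPS 3 deltaPS)))) ((387420489 * ((vPS 3 deltaPS) ^ 2))), tr_c3a_10, tr_c3a_12]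
  decide +kernel

theorem tr_c3a_R : tr 17 (((((deltaPS ^ 2) + ((196830 * deltaPS) * (vPS 3 deltaPS))) + (387420489 * ((vPS 3 deltaPS) ^ 2))) ^ 2)) = l_c3a_L := by
  rw [tr_pow_two 17 ((((deltaPS ^ 2) + ((196830 * deltaPS) * (vPS 3 deltaPS))) + (387420489 * ((vPS 3 deltaPS) ^ 2)))), tr_c3a_13]
  decide +kernel

/-- Certificate for `level3a` (Sturm bound 16). -/
theorem cert3a_lt : ∀ n, n < 17 → coeff n (deltaPS * vPS 3 deltaPS * (eisenstein4 ^ 3 - 756 * deltaPS - 19131876 * vPS 3 deltaPS) ^ 2) =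
    coeff n ((deltaPS ^ 2 + 196830 * deltaPS * vPS 3 deltaPS + 387420489 * vPS 3 deltaPS ^ 2) ^ 2) :=
  fun _ hn => coeff_eq_of_tr_eq (tr_c3a_L.trans tr_c3a_R.symm) hn

theorem cert3a : ∀ n ≤ 16, coeff n (deltaPS * vPS 3 deltaPS * (eisenstein4 ^ 3 - 756 * deltaPS - 19131876 * vPS 3 deltaPS) ^ 2) =
    coeff n ((deltaPS ^ 2 + 196830 * deltaPS * vPS 3 deltaPS + 387420489 * vPS 3 deltaPS ^ 2) ^ 2) :=
  fun n hn => cert3a_lt n (by omega)

/-- Literal coefficient list (length 17). -/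
def l_c3b_1 : List ℤ :=
  [0, 0, 0, 0, 1, -24, 252, -1496, 5406, -12096, 18836, -37488, 95013, -86480, -240420, 461448, 156468]

theorem tr_c3b_1 : tr 17 ((deltaPS * (vPS 3 deltaPS))) = l_c3b_1 := by
  rw [tr_mul 17 (deltaPS) ((vPS 3 deltaPS)), tr_deltaPS, tr_D3]
  decide +kernel

/-- Literal coefficient list (length 17). -/
def l_c3b_2 : List ℤ :=
  [0, 36, -864, 9072, -52992, 173880, -217728, -602784, 3041280, -4091148, -4173120, 19246032, -13353984, -20798568, 14466816, 43817760, 35536896]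

theorem tr_c3b_2 : tr 17 ((36 * deltaPS)) = l_c3b_2 := by
  rw [tr_ofNat_mul 17 (deltaPS) 36, tr_deltaPS]
  decide +kernel

/-- Literal coefficient list (length 17). -/
def l_c3b_3 : List ℤ :=
  [1, -36, 864, -8352, 52992, -173880, 397008, 602784, -3041280, 21045708, 4173120, -19246032, 410328144, 20798568, -14466816, 4589040960, -35536896]

theorem tr_c3b_3 : tr 17 ((((vPS 3 eisenstein4) ^ 3) - (36 * deltaPS))) = l_c3b_3 := by
  rw [tr_sub 17 (((vPS 3 eisenstein4) ^ 3)) ((36 * deltaPS)), tr_E3cube, tr_c3b_2]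
  decide +kernel

/-- Literal coefficient list (length 17). -/
def l_c3b_4 : List ℤ :=
  [0, 0, 0, 756, 0, 0, -18144, 0, 0, 190512, 0, 0, -1112832, 0, 0, 3651480, 0]

theorem tr_c3b_4 : tr 17 ((756 * (vPS 3 deltaPS))) = l_c3b_4 := by
  rw [tr_ofNat_mul 17 ((vPS 3 deltaPS)) 756, tr_D3]
  decide +kernel

/-- Literal coefficient list (length 17). -/
def l_c3b_5 : List ℤ :=
  [1, -36, 864, -9108, 52992, -173880, 415152, 602784, -3041280, 20855196, 4173120, -19246032, 411440976, 20798568, -14466816, 4585389480, -35536896]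

theorem tr_c3b_5 : tr 17 (((((vPS 3 eisenstein4) ^ 3) - (36 * deltaPS)) - (756 * (vPS 3 deltaPS)))) = l_c3b_5 := by
  rw [tr_sub 17 ((((vPS 3 eisenstein4) ^ 3) - (36 * deltaPS))) ((756 * (vPS 3 deltaPS))), tr_c3b_3, tr_c3b_4]
  decide +kernel

/-- Literal coefficient list (length 17). -/
def l_c3b_6 : List ℤ :=
  [1, -72, 3024, -80424, 1508256, -19901808, 187875504, -1294452288, 6643449792, -24688613448, 56504850912, 10610978400, -730078502976, 3629589741648, -7912128114432, 2710010642256, 87421775197824]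

theorem tr_c3b_6 : tr 17 ((((((vPS 3 eisenstein4) ^ 3) - (36 * deltaPS)) - (756 * (vPS 3 deltaPS))) ^ 2)) = l_c3b_6 := by
  rw [tr_pow_two 17 (((((vPS 3 eisenstein4) ^ 3) - (36 * deltaPS)) - (756 * (vPS 3 deltaPS)))), tr_c3b_5]
  decide +kernel

/-- Literal coefficient list (length 17). -/
def l_c3b_L : List ℤ :=
  [0, 0, 0, 0, 1, -96, 5004, -172640, 4313598, -81292032, 1183151204, -13547815104, 124014231333, -918863335232, 5547786538668, -27215285112288, 106195231483284]

theorem tr_c3b_L : tr 17 (((deltaPS * (vPS 3 deltaPS)) * (((((vPS 3 eisenstein4) ^ 3) - (36 * deltaPS)) - (756 * (vPS 3 deltaPS))) ^ 2))) = l_c3b_L := by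
  rw [tr_mul 17 ((deltaPS * (vPS 3 deltaPS))) ((((((vPS 3 eisenstein4) ^ 3) - (36 * deltaPS)) - (756 * (vPS 3 deltaPS))) ^ 2)), tr_c3b_1, tr_c3b_6]
  decide +kernel

/-- Literal coefficient list (length 17). -/
def l_c3b_7 : List ℤ :=
  [0, 0, 1, -48, 1080, -15040, 143820, -985824, 4857920, -16295040, 28412910, 38671600, -424520544, 1268350272, -1211937160, -4306546080, 18293091840]

theorem tr_c3b_7 : tr 17 ((deltaPS ^ 2)) = l_c3b_7 := by
  rw [tr_pow_two 17 (deltaPS), tr_deltaPS]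
  decide +kernel

/-- Literal coefficient list (length 17). -/
def l_c3b_8 : List ℤ :=
  [0, 270, -6480, 68040, -397440, 1304100, -1632960, -4520880, 22809600, -30683610, -31298400, 144345240, -100154880, -155989260, 108501120, 328633200, 266526720]

theorem tr_c3b_8 : tr 17 ((270 * deltaPS)) = l_c3b_8 := by
  rw [tr_ofNat_mul 17 (deltaPS) 270, tr_deltaPS]
  decide +kernel

/-- Literal coefficient list (length 17). -/
def l_c3b_9 : List ℤ :=
  [0, 0, 0, 0, 270, -6480, 68040, -403920, 1459620, -3265920, 5085720, -10121760, 25653510, -23349600, -64913400, 124590960, 42246360]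

theorem tr_c3b_9 : tr 17 (((270 * deltaPS) * (vPS 3 deltaPS))) = l_c3b_9 := by
  rw [tr_mul 17 ((270 * deltaPS)) ((vPS 3 deltaPS)), tr_c3b_8, tr_D3]
  decide +kernel

/-- Literal coefficient list (length 17). -/
def l_c3b_10 : List ℤ :=
  [0, 0, 1, -48, 1350, -21520, 211860, -1389744, 6317540, -19560960, 33498630, 28549840, -398867034, 1245000672, -1276850560, -4181955120, 18335338200]

theorem tr_c3b_10 : tr 17 (((deltaPS ^ 2) + ((270 * deltaPS) * (vPS 3 deltaPS)))) = l_c3b_10 := by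
  rw [tr_add 17 ((deltaPS ^ 2)) (((270 * deltaPS) * (vPS 3 deltaPS))), tr_c3b_7, tr_c3b_9]
  decide +kernel

/-- Literal coefficient list (length 17). -/
def l_c3b_11 : List ℤ :=
  [0, 0, 0, 0, 0, 0, 1, 0, 0, -48, 0, 0, 1080, 0, 0, -15040, 0]

theorem tr_c3b_11 : tr 17 (((vPS 3 deltaPS) ^ 2)) = l_c3b_11 := by
  rw [tr_pow_two 17 ((vPS 3 deltaPS)), tr_D3]
  decide +kernel

/-- Literal coefficient list (length 17). -/
def l_c3b_12 : List ℤ :=
  [0, 0, 0, 0, 0, 0, 729, 0, 0, -34992, 0, 0, 787320, 0, 0, -10964160, 0]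

theorem tr_c3b_12 : tr 17 ((729 * ((vPS 3 deltaPS) ^ 2))) = l_c3b_12 := by
  rw [tr_ofNat_mul 17 (((vPS 3 deltaPS) ^ 2)) 729, tr_c3b_11]
  decide +kernel

/-- Literal coefficient list (length 17). -/
def l_c3b_13 : List ℤ :=
  [0, 0, 1, -48, 1350, -21520, 212589, -1389744, 6317540, -19595952, 33498630, 28549840, -398079714, 1245000672, -1276850560, -4192919280, 18335338200]

theorem tr_c3b_13 : tr 17 ((((deltaPS ^ 2) + ((270 * deltaPS) * (vPS 3 deltaPS))) + (729 * ((vPS 3 deltaPS) ^ 2)))) = l_c3b_13 := by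
  rw [tr_add 17 (((deltaPS ^ 2) + ((270 * deltaPS) * (vPS 3 deltaPS)))) ((729 * ((vPS 3 deltaPS) ^ 2))), tr_c3b_10, tr_c3b_12]
  decide +kernel

theorem tr_c3b_R : tr 17 (((((deltaPS ^ 2) + ((270 * deltaPS) * (vPS 3 deltaPS))) + (729 * ((vPS 3 deltaPS) ^ 2))) ^ 2)) = l_c3b_L := by
  rw [tr_pow_two 17 ((((deltaPS ^ 2) + ((270 * deltaPS) * (vPS 3 deltaPS))) + (729 * ((vPS 3 deltaPS) ^ 2)))), tr_c3b_13]
  decide +kernel

/-- Certificate for `level3b` (Sturm bound 16). -/
theorem cert3b_lt : ∀ n, n < 17 → coeff n (deltaPS * vPS 3 deltaPS * ((vPS 3 eisenstein4) ^ 3 - 36 * deltaPS - 756 * vPS 3 deltaPS) ^ 2) =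
    coeff n ((deltaPS ^ 2 + 270 * deltaPS * vPS 3 deltaPS + 729 * vPS 3 deltaPS ^ 2) ^ 2) :=
  fun _ hn => coeff_eq_of_tr_eq (tr_c3b_L.trans tr_c3b_R.symm) hn

theorem cert3b : ∀ n ≤ 16, coeff n (deltaPS * vPS 3 deltaPS * ((vPS 3 eisenstein4) ^ 3 - 36 * deltaPS - 756 * vPS 3 deltaPS) ^ 2) =
    coeff n ((deltaPS ^ 2 + 270 * deltaPS * vPS 3 deltaPS + 729 * vPS 3 deltaPS ^ 2) ^ 2) :=
  fun n hn => cert3b_lt n (by omega)

end Fermat.Agent.S28.H14
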