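import Fermat.Agent.S28.H14.Cert2
import Fermat.Agent.S28.H14.Cert3

/-!
# S28 / M2c: coefficient certificates for the four Hauptmodul identities (entry point)

With `D := deltaPS`, `E := eisenstein4` (all in `PowerSeries ℤ`):

* `cert2a : ∀ n ≤ 9,  coeff n (E ^ 3 * D * vPS 2 D) = coeff n ((D + 256 * vPS 2 D) ^ 3)`
* `cert2b : ∀ n ≤ 9,  coeff n ((vPS 2 E) ^ 3 * D * vPS 2 D) = coeff n ((D + 16 * vPS 2 D) ^ 3)`
* `cert3a : ∀ n ≤ 16, coeff n (D * vPS 3 D * (E ^ 3 - 756 * D - 19131876 * vPS 3 D) ^ 2)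
    = coeff n ((D ^ 2 + 196830 * D * vPS 3 D + 387420489 * vPS 3 D ^ 2) ^ 2)`
* `cert3b : ∀ n ≤ 16, coeff n (D * vPS 3 D * ((vPS 3 E) ^ 3 - 36 * D - 756 * vPS 3 D) ^ 2)
    = coeff n ((D ^ 2 + 270 * D * vPS 3 D + 729 * vPS 3 D ^ 2) ^ 2)`

Stronger versions `cert2a_lt`, … (all `n < 17`) and the explicit coefficient lists
`tr_deltaPS`, `tr_eisenstein4`, `tr_etaProd`, … (first 17 coefficients) are also exported; the
generic machinery (`tr`, `tr_mul`, `coeff_eq_of_tr_eq`, …) is in `Trunc.lean`.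
-/
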